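/-
S36 / MOD3, rows FF (helper370): residue degree one along `α` at ANY level.

`resInfQ` is leaf L11 of A2/MOD (`A2.Mod.H378.resInf`, helper378) with the hypothesis `q ∤ M`
removed: for every level `M ≠ 0` (in particular `M = q M'`) and every prime `q`,

    V∞(M q) = α (V∞(M)) + w · V∞(M q).

The proof is helper378's, verbatim: it never used `q ∤ M` (the Kronecker relation
`(j_{dq}^q - j_d)(j_{dq} - j_d^q) = - q Θ` holds for every `d`, and the divisors of `M q` are the
`d ∣ M` and the `d' q`, `d' ∣ M`, for every `M`); only the packaging `A2.Mod.Setting` carried it.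
`SettingQ` is `Setting` without `q_not_dvd` and `M_ne_zero`.

Also: `comap_alpha_vinfQ` : `V∞(M q).comap α = V∞(M)` (field `comap_α₁` of `S36.Eng.TripleCtx`).
-/
import Fermat.Agent.A2.Mod.H378.L11

set_option autoImplicit false
set_option linter.unusedSectionVars false
set_option linter.style.haveILetI false
set_option synthInstance.maxHeartbeats 400000
set_option maxHeartbeats 1600000

noncomputable section

namespace Fermat.Agent.S36.H370

open ModularCurve HahnSeries Fermat.Agent.A2 Fermat.Agent.A2.Mod Fermat.Agent.A2.H708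
  Fermat.Agent.S28 Fermat.Agent.A2.Mod.H378

/-- The standing hypotheses of the `q`-adic leaves at an ARBITRARY level: `q` prime, `P` over `q`,
`R_E = P ∩ E` a discrete valuation ring with uniformiser `w`.  (`A2.Mod.Setting` without the
hypothesis `q ∤ M`.) -/
structure SettingQ (P : ValuationSubring Qb) (E : IntermediateField ℚ Qb) (q : ℕ)
    (w : RE P E) : Prop where
  q_prime : q.Prime
  lies_over : P.LiesOverPrime q
  dvr : IsDiscreteValuationRing (RE P E)
  unif : Irreducible w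

theorem SettingQ.of_setting {P : ValuationSubring Qb} {E : IntermediateField ℚ Qb} {M q : ℕ}
    {w : RE P E} (h : Setting P E M q w) : SettingQ P E q w :=
  ⟨h.q_prime, h.lies_over, h.dvr, h.unif⟩

section Concrete

variable {P : ValuationSubring Qb} {E : IntermediateField ℚ Qb} {M q : ℕ} [NeZero M] [NeZero q]
  {w : RE P E}

theorem attainsQ (hS : SettingQ P E q w) (N : ℕ) :
    AttainsMax (RE P E) (modularFunctionFieldFull N) := by
  haveI := hS.dvr
  exact attainsMax_of_isNoetherianRing _ _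

theorem alpha_mem_iffQ (hS : SettingQ P E q w) {VM : ValuationSubring (FE E M)}
    {V : ValuationSubring (FE E (M * q))} (hVM : IsVinf P E M VM) (hV : IsVinf P E (M * q) V)
    (g : FE E M) : αE E M q g ∈ V ↔ g ∈ VM := by
  rw [hV (αE E M q g), hVM g, coe_heckeAlphaBar]
  constructor
  · exact isGaussInt_descend (RE P E) (intGen_full M) (attainsQ hS M) (FE_le E M q) g.2
  · exact isGaussInt_mono (RE P E) (FE_le E M q)

theorem w_ne_zeroQ (hS : SettingQ P E q w) : (w : E) ≠ 0 :=
  fun h => hS.unif.ne_zero (Subtype.ext h)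

theorem cE_ne_zeroQ (hS : SettingQ P E q w) (N : ℕ) : cE P E N w ≠ 0 := by
  intro h
  exact w_ne_zeroQ hS ((map_eq_zero (algebraMap E (FE E N))).mp h)

theorem w_inv_not_memQ (hS : SettingQ P E q w) : (w : E)⁻¹ ∉ RE P E := by
  intro h
  apply hS.unif.not_isUnit
  refine ⟨⟨w, ⟨(w : E)⁻¹, h⟩, ?_, ?_⟩, rfl⟩
  · exact Subtype.ext (mul_inv_cancel₀ (w_ne_zeroQ hS))
  · exact Subtype.ext (inv_mul_cancel₀ (w_ne_zeroQ hS))

theorem exists_q_eqQ (hS : SettingQ P E q w) : ∃ c : RE P E, ((q : ℕ) : E) = (w : E) * (c : E) := by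
  haveI := hS.dvr
  have hq := hS.lies_over
  have hqv : P.valuation ((q : ℕ) : Qb) < 1 := (ValuationSubring.mem_nonunits_iff P).mp hq
  have hqP : algebraMap E Qb ((q : ℕ) : E) ∈ P := by
    rw [map_natCast, ← ValuationSubring.valuation_le_one_iff]
    exact hqv.le
  set qA : RE P E := ⟨((q : ℕ) : E), hqP⟩ with hqA
  have hnu : ¬ IsUnit qA := by
    rintro ⟨u, hu⟩
    have h1 : qA * ((u⁻¹ : (RE P E)ˣ) : RE P E) = 1 := by
      rw [← hu]
      exact u.mul_inv
    have h2 : ((q : ℕ) : Qb) * algebraMap E Qb (((u⁻¹ : (RE P E)ˣ) : RE P E) : E) = 1 := by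
      have h3 := congrArg (fun z : RE P E => algebraMap E Qb (z : E)) h1
      simpa [hqA] using h3
    have h4 : P.valuation (algebraMap E Qb (((u⁻¹ : (RE P E)ˣ) : RE P E) : E)) ≤ 1 :=
      (ValuationSubring.valuation_le_one_iff _ _).mpr ((u⁻¹ : (RE P E)ˣ) : RE P E).2
    have h5 := congrArg P.valuation h2
    rw [map_mul, map_one] at h5
    have h6 : P.valuation ((q : ℕ) : Qb) *
        P.valuation (algebraMap E Qb (((u⁻¹ : (RE P E)ˣ) : RE P E) : E)) < 1 := by
      calc _ ≤ P.valuation ((q : ℕ) : Qb) * 1 := by gcongr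
        _ = P.valuation ((q : ℕ) : Qb) := mul_one _
        _ < 1 := hqv
    exact (ne_of_lt h6) h5
  have hmem : qA ∈ IsLocalRing.maximalIdeal (RE P E) := (IsLocalRing.mem_maximalIdeal _).mpr hnu
  rw [hS.unif.maximalIdeal_eq, Ideal.mem_span_singleton] at hmem
  obtain ⟨c, hc⟩ := hmem
  refine ⟨c, ?_⟩
  have := congrArg Subtype.val hc
  simpa [hqA] using this

theorem kron_XQ (hS : SettingQ P E q w) {VM : ValuationSubring (FE E M)}
    {V : ValuationSubring (FE E (M * q))} (hVM : IsVinf P E M VM) (hV : IsVinf P E (M * q) V)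
    {x : FE E (M * q)} (hx : x ∈ Xset E M q) :
    ∃ a ∈ Oring E M q VM,
      ∃ s ∈ Subring.closure ((Oring E M q VM : Set (FE E (M * q))) ∪ Xset E M q),
        s ≠ 0 ∧ s⁻¹ ∈ V.toSubring ∧
        ∃ c ∈ Subring.closure ((Oring E M q VM : Set (FE E (M * q))) ∪ Xset E M q),
          s * (x - a) = cE P E (M * q) w * c := by
  obtain ⟨d, hd, hdM, hxd⟩ := hx
  haveI := hd
  set B := Subring.closure ((Oring E M q VM : Set (FE E (M * q))) ∪ Xset E M q) with hB
  set y0 : FE E M := ⟨jser E d, jser_mem E M d hdM⟩ with hy0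
  have hy0V : y0 ∈ VM := jser_mem_V hVM (d := d) rfl
  set y : FE E (M * q) := αE E M q y0 with hy
  have hyc : (y : LaurentSeries E) = jser E d := coe_heckeAlphaBar M q y0
  have hyO : y ∈ Oring E M q VM := mem_Oring.mpr ⟨y0, hy0V, rfl⟩
  have hxB : x ∈ B := Subring.subset_closure (Or.inr ⟨d, hd, hdM, hxd⟩)
  have hyB : y ∈ B := Subring.subset_closure (Or.inl hyO)
  obtain ⟨Θ, hΘ⟩ := kron_series E q hS.q_prime d
  obtain ⟨c0, hc0⟩ := exists_q_eqQ hS
  set θ : FE E (M * q) := Θ.eval₂ ((Polynomial.aeval (R := ℤ) y).toRingHom) x with hθ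
  have hθB : θ ∈ B := by
    refine eval₂_mem_subring _ x B (fun r => ?_) hxB Θ
    show Polynomial.aeval y r ∈ B
    rw [Polynomial.aeval_def]
    refine eval₂_mem_subring _ y B (fun n => ?_) hyB r
    rw [eq_intCast]
    exact intCast_mem B n
  have hθc : (θ : LaurentSeries E) = Θ.eval₂ (evalAt (jser E d)) (jser E (d * q)) := by
    rw [← valHom_apply, hθ, Polynomial.hom_eval₂, valHom_comp_aeval, valHom_apply, hxd, hyc]
  -- the unit `s`
  have hsc : ((x ^ q - y : FE E (M * q)) : LaurentSeries E)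
      = incl (RE P E) (castA (RE P E) (jInt (d * q) ^ q - jInt d)) := by
    rw [incl_sInt, ← valHom_apply, map_sub, map_pow, valHom_apply, valHom_apply, hxd, hyc]
  have hred := red_sInt_ne_zero E (RE P E) q hS.q_prime.two_le d
  have hs0 : x ^ q - y ≠ 0 := by
    intro h
    have h1 : ((x ^ q - y : FE E (M * q)) : LaurentSeries E) = 0 := by
      rw [h]
      rfl
    rw [hsc] at h1
    exact incl_ne_zero _ (ne_zero_of_red_ne_zero _ hred) h1
  have hsi : (x ^ q - y)⁻¹ ∈ V := by
    rw [hV, IntermediateField.coe_inv, hsc]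
    refine isGaussInt_inv_of_prim _ hred ?_
    rw [← hsc]
    exact (x ^ q - y).2
  have hc0O : cE P E (M * q) c0 ∈ Oring E M q VM :=
    mem_Oring.mpr ⟨cE P E M c0, cE_mem hVM c0, alpha_cE c0⟩
  refine ⟨y ^ q, (Oring E M q VM).pow_mem hyO q, x ^ q - y,
    B.sub_mem (B.pow_mem hxB q) hyB, hs0, hsi, -(cE P E (M * q) c0 * θ),
    B.neg_mem (B.mul_mem (Subring.subset_closure (Or.inl hc0O)) hθB), ?_⟩
  apply Subtype.ext
  have hqc : ((q : ℕ) : LaurentSeries E) = cst ((w : E)) * cst (c0 : E) := by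
    rw [← cst_mul, ← hc0]
    exact (map_natCast (algebraMap E (LaurentSeries E)) q).symm
  have hL : (((x ^ q - y) * (x - y ^ q) : FE E (M * q)) : LaurentSeries E)
      = (jser E (d * q) ^ q - jser E d) * (jser E (d * q) - jser E d ^ q) := by
    rw [← valHom_apply, map_mul, map_sub, map_sub, map_pow, map_pow, valHom_apply, valHom_apply,
      hxd, hyc]
  have hR : ((cE P E (M * q) w * -(cE P E (M * q) c0 * θ) : FE E (M * q)) : LaurentSeries E)
      = cst (w : E) * -(cst (c0 : E) * Θ.eval₂ (evalAt (jser E d)) (jser E (d * q))) := by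
    rw [← valHom_apply, map_mul, map_neg, map_mul, valHom_apply _ θ, hθc]
    rfl
  rw [hL, hR]
  rw [hqc] at hΘ
  linear_combination hΘ

theorem gen_XQ (hS : SettingQ P E q w) {VM : ValuationSubring (FE E M)}
    (hVM : IsVinf P E M VM) (f : FE E (M * q)) :
    f ∈ Subfield.closure ((Oring E M q VM : Set (FE E (M * q))) ∪ Xset E M q) := by
  set G := Subfield.closure ((Oring E M q VM : Set (FE E (M * q))) ∪ Xset E M q) with hG
  set Gs : Subfield (LaurentSeries E) := G.map (valHom E (M * q)) with hGsdef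
  have hGs : ∀ x : FE E (M * q), (x : LaurentSeries E) ∈ Gs → x ∈ G := by
    intro x hx
    obtain ⟨y, hy, hyx⟩ := Subfield.mem_map.mp hx
    have h1 : y = x := Subtype.ext hyx
    rw [← h1]
    exact hy
  have hGs' : ∀ x : FE E (M * q), x ∈ G → (x : LaurentSeries E) ∈ Gs :=
    fun x hx => Subfield.mem_map.mpr ⟨x, hx, rfl⟩
  -- constants
  have hconstA : ∀ r : RE P E, cE P E (M * q) r ∈ G := fun r =>
    Subfield.subset_closure (Or.inl (mem_Oring.mpr ⟨cE P E M r, cE_mem hVM r, alpha_cE r⟩))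
  have hconst : ∀ e : E, algebraMap E (LaurentSeries E) e ∈ Gs := by
    intro e
    refine hGs' (algebraMap E (FE E (M * q)) e) ?_
    rcases (RE P E).mem_or_inv_mem e with h | h
    · exact hconstA ⟨e, h⟩
    · have h1 : algebraMap E (FE E (M * q)) e = (cE P E (M * q) ⟨e⁻¹, h⟩)⁻¹ := by
        rw [cE, ← map_inv₀, inv_inv]
      rw [h1]
      exact G.inv_mem (hconstA _)
  -- generators
  have hj : ∀ (d : ℕ) [NeZero d], d ∣ M * q → jser E d ∈ Gs := by
    intro d hd hdN
    rcases dvd_cases hS.q_prime hdN with hdM | ⟨d', hd'M, hdd'⟩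
    · have h1 : αE E M q ⟨jser E d, jser_mem E M d hdM⟩ ∈ G :=
        Subfield.subset_closure (Or.inl (mem_Oring.mpr
          ⟨⟨jser E d, jser_mem E M d hdM⟩, jser_mem_V hVM (d := d) rfl, rfl⟩))
      exact hGs' _ h1
    · subst hdd'
      haveI : NeZero d' := ⟨fun h => by
        rw [h, zero_mul] at hd
        exact hd.out rfl⟩
      have h1 : (⟨jser E (d' * q), jser_mem E (M * q) (d' * q) hdN⟩ : FE E (M * q)) ∈ G :=
        Subfield.subset_closure (Or.inr ⟨d', inferInstance, hd'M, rfl⟩)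
      exact hGs' _ h1
  apply hGs
  have hf := mem_laurentBaseChange_iff.mp f.2
  refine Subfield.closure_le.mpr ?_ hf
  rintro z (⟨e, rfl⟩ | ⟨z0, hz0, rfl⟩)
  · exact hconst e
  · have hz0' : z0 ∈ IntermediateField.adjoin ℚ (divisorExpansions (M * q)) := hz0
    induction hz0' using IntermediateField.adjoin_induction with
    | mem y hy =>
      obtain ⟨d, hd, hdN, rfl⟩ := hy
      haveI := hd
      show coeffEmb E (qExpand ℚ d jq) ∈ Gs
      rw [← jser_eq_coeffEmb]
      exact hj d hdN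
    | algebraMap c =>
      have h1 : coeffEmb E (algebraMap ℚ (LaurentSeries ℚ) c)
          = algebraMap E (LaurentSeries E) (algebraMap ℚ E c) := by
        rw [coeffEmb, algebraMap_laurentSeries_eq_single, algebraMap_laurentSeries_eq_single,
          coeffMap_single]
      show coeffEmb E (algebraMap ℚ (LaurentSeries ℚ) c) ∈ Gs
      rw [h1]
      exact hconst _
    | add x y hx hy ihx ihy =>
      show coeffEmb E (x + y) ∈ Gs
      rw [map_add]
      exact Gs.add_mem (ihx hx) (ihy hy)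
    | inv x hx ihx =>
      show coeffEmb E x⁻¹ ∈ Gs
      rw [map_inv₀]
      exact Gs.inv_mem (ihx hx)
    | mul x y hx hy ihx ihy =>
      show coeffEmb E (x * y) ∈ Gs
      rw [map_mul]
      exact Gs.mul_mem (ihx hx) (ihy hy)

theorem disc_VQ (hS : SettingQ P E q w) (N : ℕ) {V : ValuationSubring (FE E N)}
    (hV : IsVinf P E N V) {x : FE E N} (hx : x ∈ V) (hx0 : x ≠ 0) :
    ∃ (n : ℕ) (u : FE E N), u ∈ V ∧ u⁻¹ ∈ V ∧ x = cE P E N w ^ n * u := by
  haveI := hS.dvr
  have hx0' : (x : LaurentSeries E) ≠ 0 := fun h => hx0 (Subtype.ext h)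
  obtain ⟨n, h1, h2⟩ := exists_pow_mul_unit (RE P E) hS.unif (intGen_full N) (attainsQ hS N)
    x.2 hx0' ((hV x).mp hx)
  have hcw := cE_ne_zeroQ hS N
  have hu : ((x * (cE P E N w ^ n)⁻¹ : FE E N) : LaurentSeries E)
      = (x : LaurentSeries E) * (cst ((w : RE P E) : E) ^ n)⁻¹ := by
    rw [← valHom_apply, map_mul, map_inv₀, map_pow]
    rfl
  refine ⟨n, x * (cE P E N w ^ n)⁻¹, ?_, ?_, ?_⟩
  · rw [hV, hu]
    exact h1
  · rw [hV, ← valHom_apply, map_inv₀, valHom_apply, hu]
    exact h2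
  · field_simp

theorem resOneDataQ (hS : SettingQ P E q w) {VM : ValuationSubring (FE E M)}
    {V : ValuationSubring (FE E (M * q))} (hVM : IsVinf P E M VM) (hV : IsVinf P E (M * q) V) :
    ResOneData V.toSubring (Oring E M q VM) (cE P E (M * q) w) (Xset E M q) where
  O_le := by
    intro x hx
    obtain ⟨g, hg, rfl⟩ := mem_Oring.mp hx
    exact (alpha_mem_iffQ hS hVM hV g).mpr hg
  w_mem := mem_Oring.mpr ⟨cE P E M w, cE_mem hVM w, alpha_cE w⟩
  w_ne := cE_ne_zeroQ hS _
  w_nonunit := by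
    intro h
    have h1 : (cE P E (M * q) w)⁻¹ ∈ V := h
    rw [hV, ← valHom_apply, map_inv₀] at h1
    have h2 : valHom E (M * q) (cE P E (M * q) w) = cst ((w : RE P E) : E) := rfl
    have h3 : (cst ((w : RE P E) : E))⁻¹ = cst ((w : E)⁻¹) := (map_inv₀ _ _).symm
    rw [h2, h3, isGaussInt_cst_iff] at h1
    exact w_inv_not_memQ hS h1
  O_div := by
    intro x hx hxw
    obtain ⟨g, hg, rfl⟩ := mem_Oring.mp hx
    have h1 : αE E M q g * (cE P E (M * q) w)⁻¹ = αE E M q (g * (cE P E M w)⁻¹) := by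
      rw [map_mul, map_inv₀, alpha_cE]
    rw [h1] at hxw ⊢
    exact mem_Oring.mpr ⟨_, (alpha_mem_iffQ hS hVM hV _).mp hxw, rfl⟩
  O_inv := by
    intro x hx hxi
    obtain ⟨g, hg, rfl⟩ := mem_Oring.mp hx
    have h1 : (αE E M q g)⁻¹ = αE E M q g⁻¹ := (map_inv₀ _ _).symm
    rw [h1] at hxi ⊢
    exact mem_Oring.mpr ⟨_, (alpha_mem_iffQ hS hVM hV _).mp hxi, rfl⟩
  X_le := by
    rintro x ⟨d, hd, hdM, hxd⟩
    haveI := hd
    exact jser_mem_V hV hxd
  disc := fun x hx hx0 => disc_VQ hS (M * q) hV hx hx0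
  kron := fun x hx => kron_XQ hS hVM hV hx
  gen := gen_XQ hS hVM

/-- **Residue degree one along `α`, any level** (`q ∣ M` allowed):
`V∞(M q) = α (V∞(M)) + w V∞(M q)`. -/
theorem resInfQ (hS : SettingQ P E q w) {VM : ValuationSubring (FE E M)}
    {V : ValuationSubring (FE E (M * q))} (hVM : IsVinf P E M VM) (hV : IsVinf P E (M * q) V)
    {f : FE E (M * q)} (hf : f ∈ V) :
    ∃ g ∈ VM, InW P E (M * q) V w (f - αE E M q g) := by
  obtain ⟨g', hg', hcong⟩ := (resOneDataQ hS hVM hV).exists_congr hf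
  obtain ⟨g, hg, rfl⟩ := mem_Oring.mp hg'
  exact ⟨g, hg, hcong⟩

/-- `V∞(M q)` lies over `V∞(M)` along `α` (any level). -/
theorem comap_alpha_vinfQ (hS : SettingQ P E q w) {VM : ValuationSubring (FE E M)}
    {V : ValuationSubring (FE E (M * q))} (hVM : IsVinf P E M VM) (hV : IsVinf P E (M * q) V) :
    V.comap (αE E M q : FE E M →+* FE E (M * q)) = VM := by
  ext g
  rw [ValuationSubring.mem_comap]
  exact alpha_mem_iffQ hS hVM hV g

end Concrete

end Fermat.Agent.S36.H370
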