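/-
S36 / MOD3, rows FF and VV of the `(e, f)` table (helper370).

Level `N` ARBITRARY (`q ∣ N` allowed), `V∞(N)`, `V∞(N q)` the Gauss valuation rings
(`A2.Mod.IsVinf`), `α, β : F_N → F_{Nq}` the two degeneracy maps.

* `isGaussInt_qExpand`   : `t ↦ t^q` preserves Gauss-integrality (`F_N → F_{Nq}`);
* `beta_mem_iffQ`        : `β g ∈ V∞(N q) ↔ g ∈ V∞(N)`;
* `comap_beta_vinfQ`     : `V∞(N q).comap β = V∞(N)`              (field `comap_β₁` of `TripleCtx`);
* `beta_inWQ`, `alpha_inWQ` : `α`, `β` map `w V∞(N)` into `w V∞(N q)`;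
* `beta_alpha_commQ`     : `β_{Mq} ∘ α_M = α_{Mq} ∘ β_M` on `F_M`;
* `kronQ`                : **Kronecker congruence at level `M q → M q²`** (`q ∤ M`):
      for `a ∈ V∞(M q)` there is `a' ∈ V∞(M q)` with `β a ≡ (α a')^q  mod w V∞(M q²)`
  (from leaves L11 and L12 of A2/MOD at level `M`);
* `comap_alpha_vzeroQ`, `comap_beta_vzeroQ` : the rows of `V₀ := V∞ ∘ W` (Fricke, leaf L5):
      `V₀(N q).comap α = V₀(N)`, `V₀(N q).comap β = V₀(N)`   (fields `comap_α₃`, `comap_β₃`);
* `resZeroQ`, `kronZeroQ` : residue degree one along `β` on `V₀`, Kronecker along `α` on `V₀`.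
-/
import Fermat.Agent.S36.H370.Mod3Res
import Fermat.Agent.A2.Mod.H96.L12
import Fermat.Agent.A2.Mod.H553.Fricke
import Fermat.Prelude.Thm_ModularCurve_coeffMap_qExpand

set_option autoImplicit false
set_option linter.unusedSectionVars false
set_option linter.style.haveILetI false
set_option synthInstance.maxHeartbeats 400000
set_option maxHeartbeats 1600000

noncomputable section

namespace Fermat.Agent.S36.H370

open ModularCurve HahnSeries Fermat.Agent.A2 Fermat.Agent.A2.Mod Fermat.Agent.A2.H708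
  Fermat.Agent.S28 Fermat.Agent.A2.Mod.H378

/-! ## `t ↦ t^q` and Gauss-integrality -/

section Generic

variable {L : Type*} [Field L] [Algebra ℚ L] (A : ValuationSubring L)

theorem incl_qExpand (q : ℕ) [NeZero q] (U : LaurentSeries A) :
    incl A (qExpand A q U) = qExpand L q (incl A U) :=
  coeffMap_qExpand _ q U

theorem red_qExpand (q : ℕ) [NeZero q] (U : LaurentSeries A) :
    red A (qExpand A q U) = qExpand (IsLocalRing.ResidueField A) q (red A U) :=
  coeffMap_qExpand _ q U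

theorem red_qExpand_ne_zero (q : ℕ) [NeZero q] {U : LaurentSeries A} (hU : red A U ≠ 0) :
    red A (qExpand A q U) ≠ 0 := by
  rw [red_qExpand]
  intro h
  exact hU (qExpand_injective q (h.trans (map_zero _).symm))

theorem qExpand_cst (q : ℕ) [NeZero q] (c : L) : qExpand L q (cst c) = cst c := by
  rw [cst, algebraMap_laurentSeries_eq_single, qExpand_single, mul_zero]

theorem qExpand_mem_full (N q : ℕ) [NeZero N] [NeZero q] {x : LaurentSeries L}
    (hx : x ∈ laurentBaseChange L (modularFunctionFieldFull N)) :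
    qExpand L q x ∈ laurentBaseChange L (modularFunctionFieldFull (N * q)) :=
  (heckeBetaBar L N q ⟨x, hx⟩).2

/-- `t ↦ t^q` preserves Gauss-integrality. -/
theorem isGaussInt_qExpand (N q : ℕ) [NeZero N] [NeZero q] {f : LaurentSeries L}
    (hf : IsGaussInt A (modularFunctionFieldFull N) f) :
    IsGaussInt A (modularFunctionFieldFull (N * q)) (qExpand L q f) := by
  obtain ⟨U₁, U₂, h0, hm, he⟩ := hf
  refine ⟨qExpand A q U₁, qExpand A q U₂, red_qExpand_ne_zero A q h0, ?_, ?_⟩
  · rw [incl_qExpand]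
    exact qExpand_mem_full N q hm
  · rw [incl_qExpand, incl_qExpand, ← map_mul, he]

/-- … and reflects it. -/
theorem isGaussInt_of_qExpand (N q : ℕ) [NeZero N] [NeZero q]
    (hmax : AttainsMax A (modularFunctionFieldFull N)) {f : LaurentSeries L}
    (hfF : f ∈ laurentBaseChange L (modularFunctionFieldFull N))
    (hf : IsGaussInt A (modularFunctionFieldFull (N * q)) (qExpand L q f)) :
    IsGaussInt A (modularFunctionFieldFull N) f := by
  by_cases hf0 : f = 0
  · rw [hf0]
    exact IsGaussInt.zero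
  obtain ⟨c, U₁, U₂, hc, h₁, h₂, hm₁, hm₂, he⟩ :=
    exists_normal_form (intGen_full N) hmax hfF hf0
  have he' : qExpand L q f * incl A (qExpand A q U₂) = cst c * incl A (qExpand A q U₁) := by
    rw [incl_qExpand, incl_qExpand, ← map_mul, he, map_mul, qExpand_cst]
  have hm₂' : incl A (qExpand A q U₂) ∈
      laurentBaseChange L (modularFunctionFieldFull (N * q)) := by
    rw [incl_qExpand]
    exact qExpand_mem_full N q hm₂
  have hcA : c ∈ A :=
    (isGaussInt_iff_of_normal_form (red_qExpand_ne_zero A q h₁) (red_qExpand_ne_zero A q h₂)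
      hm₂' he').mp hf
  exact (isGaussInt_iff_of_normal_form h₁ h₂ hm₂ he).mpr hcA

end Generic

/-! ## The rows of `V∞` -/

section Concrete

variable {P : ValuationSubring Qb} {E : IntermediateField ℚ Qb} {M q : ℕ} [NeZero M] [NeZero q]
  {w : RE P E}

/-- `β g ∈ V∞(M q) ↔ g ∈ V∞(M)` (any level `M`). -/
theorem beta_mem_iffQ (hS : SettingQ P E q w) {VM : ValuationSubring (FE E M)}
    {V : ValuationSubring (FE E (M * q))} (hVM : IsVinf P E M VM) (hV : IsVinf P E (M * q) V)
    (g : FE E M) : βE E M q g ∈ V ↔ g ∈ VM := by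
  rw [hV (βE E M q g), hVM g, coe_heckeBetaBar]
  constructor
  · exact isGaussInt_of_qExpand (RE P E) M q (attainsQ hS M) g.2
  · exact isGaussInt_qExpand (RE P E) M q

/-- `V∞(M q)` lies over `V∞(M)` along `β` (any level). -/
theorem comap_beta_vinfQ (hS : SettingQ P E q w) {VM : ValuationSubring (FE E M)}
    {V : ValuationSubring (FE E (M * q))} (hVM : IsVinf P E M VM) (hV : IsVinf P E (M * q) V) :
    V.comap (βE E M q : FE E M →+* FE E (M * q)) = VM := by
  ext g
  rw [ValuationSubring.mem_comap]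
  exact beta_mem_iffQ hS hVM hV g

theorem beta_cE (r : RE P E) : βE E M q (cE P E M r) = cE P E (M * q) r :=
  (βE E M q).commutes (r : E)

/-- `α` maps `w V∞(M)` into `w V∞(M q)`. -/
theorem alpha_inWQ (hS : SettingQ P E q w) {VM : ValuationSubring (FE E M)}
    {V : ValuationSubring (FE E (M * q))} (hVM : IsVinf P E M VM) (hV : IsVinf P E (M * q) V)
    {g : FE E M} (hg : InW P E M VM w g) : InW P E (M * q) V w (αE E M q g) := by
  have h1 : αE E M q g * (cE P E (M * q) w)⁻¹ = αE E M q (g * (cE P E M w)⁻¹) := by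
    rw [map_mul, map_inv₀, alpha_cE]
  show αE E M q g * (cE P E (M * q) w)⁻¹ ∈ V
  rw [h1]
  exact (alpha_mem_iffQ hS hVM hV _).mpr hg

/-- `β` maps `w V∞(M)` into `w V∞(M q)`. -/
theorem beta_inWQ (hS : SettingQ P E q w) {VM : ValuationSubring (FE E M)}
    {V : ValuationSubring (FE E (M * q))} (hVM : IsVinf P E M VM) (hV : IsVinf P E (M * q) V)
    {g : FE E M} (hg : InW P E M VM w g) : InW P E (M * q) V w (βE E M q g) := by
  have h1 : βE E M q g * (cE P E (M * q) w)⁻¹ = βE E M q (g * (cE P E M w)⁻¹) := by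
    rw [map_mul, map_inv₀, beta_cE]
  show βE E M q g * (cE P E (M * q) w)⁻¹ ∈ V
  rw [h1]
  exact (beta_mem_iffQ hS hVM hV _).mpr hg

theorem inW_add {N : ℕ} {V : ValuationSubring (FE E N)} {f g : FE E N}
    (hf : InW P E N V w f) (hg : InW P E N V w g) : InW P E N V w (f + g) := by
  show (f + g) * (cE P E N w)⁻¹ ∈ V
  rw [add_mul]
  exact V.add_mem _ _ hf hg

/-- `β_{Mq} ∘ α_M = α_{Mq} ∘ β_M`. -/
theorem beta_alpha_commQ (g : FE E M) :
    βE E (M * q) q (αE E M q g) = αE E (M * q) q (βE E M q g) := by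
  apply Subtype.ext
  rw [coe_heckeBetaBar, coe_heckeAlphaBar, coe_heckeAlphaBar, coe_heckeBetaBar]

/-- **Kronecker congruence at level `M q → M q²`**, `q ∤ M`:
for `a ∈ V∞(M q)` there is `a' ∈ V∞(M q)` with `β a ≡ (α a')^q mod w V∞(M q²)`.
Moreover `a' = α a''` comes from level `M`. -/
theorem kronQ (hS : Setting P E M q w) {VM : ValuationSubring (FE E M)}
    {VN : ValuationSubring (FE E (M * q))} {V : ValuationSubring (FE E (M * q * q))}
    (hVM : IsVinf P E M VM) (hVN : IsVinf P E (M * q) VN) (hV : IsVinf P E (M * q * q) V)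
    {a : FE E (M * q)} (ha : a ∈ VN) :
    ∃ a' ∈ VN, (∃ a'' ∈ VM, a' = αE E M q a'') ∧
      InW P E (M * q * q) V w (βE E (M * q) q a - (αE E (M * q) q a') ^ q) := by
  have hQ : SettingQ P E q w := SettingQ.of_setting hS
  obtain ⟨g, hg, h1⟩ := resInfQ hQ hVM hVN ha
  obtain ⟨g', hg', h2⟩ := H96.kron P E M q w hS VM VN hVM hVN g hg
  refine ⟨αE E M q g', (alpha_mem_iffQ hQ hVM hVN g').mpr hg', ⟨g', hg', rfl⟩, ?_⟩
  have e1 : βE E (M * q) q a - (αE E (M * q) q (αE E M q g')) ^ q
      = βE E (M * q) q (a - αE E M q g)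
        + αE E (M * q) q (βE E M q g - (αE E M q g') ^ q) := by
    rw [map_sub, map_sub, map_pow, beta_alpha_commQ]
    ring
  rw [e1]
  exact inW_add (beta_inWQ hQ hVN hV h1) (alpha_inWQ hQ hVN hV h2)

/-! ## The rows of `V₀ = V∞ ∘ W` -/

/-- `V₀(M q).comap α = V₀(M)` (any level `M`). -/
theorem comap_alpha_vzeroQ (hS : SettingQ P E q w) {VM : ValuationSubring (FE E M)}
    {V : ValuationSubring (FE E (M * q))} (hVM : IsVinf P E M VM) (hV : IsVinf P E (M * q) V)
    {WM : FE E M ≃ₐ[E] FE E M} {W : FE E (M * q) ≃ₐ[E] FE E (M * q)}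
    (hWM : IsFricke E M WM) (hW : IsFricke E (M * q) W) :
    (V.comap (W : FE E (M * q) →+* FE E (M * q))).comap (αE E M q : FE E M →+* FE E (M * q))
      = VM.comap (WM : FE E M →+* FE E M) := by
  ext g
  rw [ValuationSubring.mem_comap, ValuationSubring.mem_comap, ValuationSubring.mem_comap]
  have h := (H553.frickeCompat E M q WM W hWM hW g).1
  show W (αE E M q g) ∈ V ↔ WM g ∈ VM
  rw [h]
  exact beta_mem_iffQ hS hVM hV (WM g)

/-- `V₀(M q).comap β = V₀(M)` (any level `M`). -/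
theorem comap_beta_vzeroQ (hS : SettingQ P E q w) {VM : ValuationSubring (FE E M)}
    {V : ValuationSubring (FE E (M * q))} (hVM : IsVinf P E M VM) (hV : IsVinf P E (M * q) V)
    {WM : FE E M ≃ₐ[E] FE E M} {W : FE E (M * q) ≃ₐ[E] FE E (M * q)}
    (hWM : IsFricke E M WM) (hW : IsFricke E (M * q) W) :
    (V.comap (W : FE E (M * q) →+* FE E (M * q))).comap (βE E M q : FE E M →+* FE E (M * q))
      = VM.comap (WM : FE E M →+* FE E M) := by
  ext g
  rw [ValuationSubring.mem_comap, ValuationSubring.mem_comap, ValuationSubring.mem_comap]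
  have h := (H553.frickeCompat E M q WM W hWM hW g).2
  show W (βE E M q g) ∈ V ↔ WM g ∈ VM
  rw [h]
  exact alpha_mem_iffQ hS hVM hV (WM g)

theorem fricke_cE {N : ℕ} (W : FE E N ≃ₐ[E] FE E N) (r : RE P E) :
    W (cE P E N r) = cE P E N r :=
  W.commutes (r : E)

/-- membership in `w V₀` -/
theorem inW_comap_iff {N : ℕ} (V : ValuationSubring (FE E N)) (W : FE E N ≃ₐ[E] FE E N)
    (f : FE E N) :
    InW P E N (V.comap (W : FE E N →+* FE E N)) w f ↔ InW P E N V w (W f) := by
  show f * (cE P E N w)⁻¹ ∈ V.comap (W : FE E N →+* FE E N) ↔ W f * (cE P E N w)⁻¹ ∈ V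
  rw [ValuationSubring.mem_comap]
  have h1 : (W : FE E N →+* FE E N) (f * (cE P E N w)⁻¹) = W f * (cE P E N w)⁻¹ := by
    show W (f * (cE P E N w)⁻¹) = W f * (cE P E N w)⁻¹
    rw [map_mul, map_inv₀, fricke_cE]
  rw [h1]

/-- **Residue degree one along `β` on `V₀`** (any level):
`V₀(M q) = β (V₀(M)) + w V₀(M q)`. -/
theorem resZeroQ (hS : SettingQ P E q w) {VM : ValuationSubring (FE E M)}
    {V : ValuationSubring (FE E (M * q))} (hVM : IsVinf P E M VM) (hV : IsVinf P E (M * q) V)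
    {WM : FE E M ≃ₐ[E] FE E M} {W : FE E (M * q) ≃ₐ[E] FE E (M * q)}
    (hWM : IsFricke E M WM) (hW : IsFricke E (M * q) W)
    {f : FE E (M * q)} (hf : f ∈ V.comap (W : FE E (M * q) →+* FE E (M * q))) :
    ∃ g ∈ VM.comap (WM : FE E M →+* FE E M),
      InW P E (M * q) (V.comap (W : FE E (M * q) →+* FE E (M * q))) w (f - βE E M q g) := by
  have hf' : W f ∈ V := hf
  obtain ⟨g0, hg0, h⟩ := resInfQ hS hVM hV hf'
  refine ⟨WM g0, ?_, ?_⟩
  · rw [ValuationSubring.mem_comap]
    show WM (WM g0) ∈ VM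
    rw [hWM.2]
    exact hg0
  · rw [inW_comap_iff, map_sub, (H553.frickeCompat E M q WM W hWM hW (WM g0)).2, hWM.2]
    exact h

end Concrete

end Fermat.Agent.S36.H370
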