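import Fermat.Agent.S36.H370.Mod3Kron
import Fermat.Agent.S36.H83.BetaUniq
import Fermat.Agent.Ribet.H279.FrickeSwap
import Fermat.Agent.A2.Mod.H873.L13
import Fermat.Agent.S28.H88.Kronecker
import Fermat.Agent.S28.H807.Analytic

/-!
# S36 / MOD3 — the middle valuation ring lies over `V₀` along `β` (helper370)

Levels `N' = M q`, `N = M q q`, `q ∤ M`.  Let `V` be ANY valuation subring of `F_N` with
`V.comap α = V∞(N')`, `V ≠ V∞(N)` (the "middle" component `V₂` of `Mod3.Objs`).  Then

    V.comap β = V₀(N') = V∞(N').comap W'.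

Route (no Eisenstein splitting needed):
* Kronecker `Φ_q(X,Y) ≡ (X^q - Y)(X - Y^q) mod q` and `Φ_q(j_q, j_{qq}) = 0` give, in the residue
  field of `V`, `j_{qq}^q = j_q` or `j_{qq} = j_q^q`; with `j_q ≡ j^q` on `V∞(N')` this yields
  `β x' ≡ α (x'^n) mod 𝔪_V` for `n = 1` or `n = q`  (`x' = j j_q`);
* hence `V.comap β` induces the Gauss valuation on `E(x')` (`isGaussOver_comap_of_congr`), so it
  is `V∞(N')` or `V₀(N')` (`Ribet.H279.eq_or_eq_of_isGaussOver`, the two-extension theorem of A2);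
* `V.comap β = V∞(N')` would force `V = V∞(N)` (`H83.h83_beta_unique`).
-/

set_option autoImplicit false
set_option linter.unusedSectionVars false
set_option linter.style.haveILetI false
set_option synthInstance.maxHeartbeats 400000
set_option maxHeartbeats 1600000

noncomputable section

namespace Fermat.Agent.S36.H370

open ModularCurve HahnSeries Polynomial Fermat.Agent.A2.Mod

/-! ## Generic valuation lemmas -/

section GenericVal

variable {K L : Type*} [Field K] [Field L]

/-- Nonunits of the pull-back of a valuation ring along a field homomorphism. -/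
theorem mem_nonunits_comap_hom (V : ValuationSubring L) (φ : K →+* L) (f : K) :
    f ∈ (V.comap φ).nonunits ↔ φ f ∈ V.nonunits := by
  rw [ValuationSubring.mem_nonunits_iff_or, ValuationSubring.mem_nonunits_iff_or,
    ValuationSubring.mem_comap]
  constructor
  · rintro (h | h)
    · left
      rw [h, map_zero]
    · right
      intro h'
      apply h
      show φ f⁻¹ ∈ V
      rw [map_inv₀]
      exact h'
  · rintro (h | h)
    · left
      exact (map_eq_zero φ).mp h
    · right
      intro h'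
      apply h
      have h'' : φ f⁻¹ ∈ V := h'
      rwa [map_inv₀] at h''

theorem nonunits_sub_mem370 {V : ValuationSubring L} {a b : L} (ha : a ∈ V.nonunits)
    (hb : b ∈ V.nonunits) : a - b ∈ V.nonunits := by
  rw [ValuationSubring.mem_nonunits_iff] at ha hb ⊢
  exact Valuation.map_sub_lt _ ha hb

theorem nonunits_mem370 {V : ValuationSubring L} {a : L} (ha : a ∈ V.nonunits) : a ∈ V := by
  rw [ValuationSubring.mem_nonunits_iff] at ha
  exact (V.valuation_le_one_iff a).mp ha.le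

/-- equality of residues -/
theorem residue_eq_iff370 (V : ValuationSubring L) {x y : L} (hx : x ∈ V) (hy : y ∈ V) :
    IsLocalRing.residue V ⟨x, hx⟩ = IsLocalRing.residue V ⟨y, hy⟩ ↔ x - y ∈ V.nonunits := by
  rw [← sub_eq_zero, ← map_sub, IsLocalRing.residue_eq_zero_iff,
    ← ValuationSubring.coe_mem_nonunits_iff]
  rfl

variable {R : Type*} [CommRing R] [Algebra R L]

/-- `aeval` at congruent points is congruent. -/
theorem aeval_sub_mem_nonunits370 (V : ValuationSubring L)
    (hR : ∀ r : R, algebraMap R L r ∈ V) {a b : L} (ha : a ∈ V) (hb : b ∈ V)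
    (hab : a - b ∈ V.nonunits) (p : R[X]) : aeval a p - aeval b p ∈ V.nonunits := by
  set φ : R →+* V := (algebraMap R L).codRestrict V.toSubring hR with hφ
  have hcomp : V.subtype.comp φ = algebraMap R L := by
    ext r
    rfl
  have e : ∀ (c : L) (hc : c ∈ V), aeval c p = ((p.eval₂ φ ⟨c, hc⟩ : V) : L) := by
    intro c hc
    have h := Polynomial.hom_eval₂ p φ V.subtype ⟨c, hc⟩
    rw [hcomp] at h
    exact h.symm
  have hres : IsLocalRing.residue V (p.eval₂ φ ⟨a, ha⟩) =
      IsLocalRing.residue V (p.eval₂ φ ⟨b, hb⟩) := by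
    rw [Polynomial.hom_eval₂, Polynomial.hom_eval₂, (residue_eq_iff370 V ha hb).mpr hab]
  rw [e a ha, e b hb]
  exact (residue_eq_iff370 V (p.eval₂ φ ⟨a, ha⟩).2 (p.eval₂ φ ⟨b, hb⟩).2).mp hres

end GenericVal

/-! ## Transfer of the Gauss property -/

section Transfer

variable {R K L : Type*} [CommRing R] [IsLocalRing R] [Field K] [Field L]
  [Algebra R K] [Algebra R L]

/-- **Transfer.**  `V` over `V'` along `α`, `V'` Gauss for `x`, and `β x ≡ α (x^n)` modulo `𝔪_V`
(`n > 0`): then `V.comap β` is Gauss for `x`. -/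
theorem isGaussOver_comap_of_congr (α β : K →ₐ[R] L) {V : ValuationSubring L}
    {V' : ValuationSubring K} (hmid : V.comap (α : K →+* L) = V') {x : K}
    (hG : A2.H489.IsGaussOver R V' x) {n : ℕ} (hn : 0 < n)
    (h : β x - α (x ^ n) ∈ V.nonunits) :
    A2.H489.IsGaussOver R (V.comap (β : K →+* L)) x := by
  have hα : ∀ f : K, α f ∈ V ↔ f ∈ V' := fun f => by
    rw [← hmid, ValuationSubring.mem_comap]
    rfl
  have hαn : ∀ f : K, α f ∈ V.nonunits ↔ f ∈ V'.nonunits := fun f => by
    rw [← hmid, mem_nonunits_comap_hom]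
    rfl
  have hR : ∀ r : R, algebraMap R L r ∈ V := fun r => by
    rw [← α.commutes, hα]
    exact hG.isOver.mem r
  have hαx : α (x ^ n) ∈ V := (hα _).mpr (pow_mem hG.mem n)
  have hβx : β x ∈ V := by
    have : β x = (β x - α (x ^ n)) + α (x ^ n) := by ring
    rw [this]
    exact V.add_mem _ _ (nonunits_mem370 h) hαx
  refine ⟨⟨fun r => ?_, fun r hr => ?_⟩, ?_, ?_⟩
  · rw [ValuationSubring.mem_comap]
    show β (algebraMap R K r) ∈ V
    rw [β.commutes]
    exact hR r
  · rw [mem_nonunits_comap_hom]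
    show β (algebraMap R K r) ∈ V.nonunits
    rw [β.commutes, ← α.commutes, hαn]
    exact hG.isOver.nonunit r hr
  · rw [ValuationSubring.mem_comap]
    exact hβx
  · intro p hp
    rw [mem_nonunits_comap_hom] at hp
    have e1 : β (aeval x p) = aeval (β x) p := (Polynomial.aeval_algHom_apply β x p).symm
    have e2 : α (aeval (x ^ n) p) = aeval (α (x ^ n)) p :=
      (Polynomial.aeval_algHom_apply α (x ^ n) p).symm
    have hp' : aeval (β x) p ∈ V.nonunits := by
      rw [← e1]
      exact hp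
    have key := aeval_sub_mem_nonunits370 V hR hβx hαx h p
    have h3 : aeval (α (x ^ n)) p ∈ V.nonunits := by
      have : aeval (α (x ^ n)) p = aeval (β x) p - (aeval (β x) p - aeval (α (x ^ n)) p) := by
        ring
      rw [this]
      exact nonunits_sub_mem370 hp' key
    have h4 : aeval (x ^ n) p ∈ V'.nonunits := by
      rw [← hαn, e2]
      exact h3
    have h5 : aeval (x ^ n) p = aeval x (Polynomial.expand R n p) :=
      (Polynomial.expand_aeval n p x).symm
    rw [h5] at h4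
    have h6 := hG.prim _ h4
    rw [Polynomial.map_expand] at h6
    exact (Polynomial.expand_eq_zero hn).mp h6

end Transfer

/-! ## Kronecker in a field of characteristic `q` -/

section KronField

variable {κ : Type*} [Field κ] (q : ℕ) [Fact q.Prime] [NeZero q] [CharP κ q]

/-- `Φ_q(y, z) = 0` in a field of characteristic `q` forces `z^q = y` or `z = y^q`. -/
theorem kronecker_field370 (Φ : S28.ModPolyData q) (y z : κ)
    (h : Φ.Φ.eval₂ (Polynomial.aeval (R := ℤ) y).toRingHom z = 0) :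
    (z ^ q - y) * (z - y ^ q) = 0 := by
  have hcomp : (Polynomial.evalRingHom y).comp (Polynomial.mapRingHom (Int.castRingHom κ)) =
      (Polynomial.aeval (R := ℤ) y).toRingHom := by
    apply Polynomial.ringHom_ext
    · intro n
      simp
    · simp
  have h1 : (Φ.Φ.map (Polynomial.mapRingHom (Int.castRingHom κ))).eval₂
      (Polynomial.evalRingHom y) z = 0 := by
    rw [Polynomial.eval₂_map, hcomp]
    exact h
  rw [S28.h88_kronecker_charP q κ Φ] at h1
  simpa [Polynomial.eval₂_mul, Polynomial.eval₂_sub, Polynomial.eval₂_pow] using h1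

end KronField

/-! ## The concrete statement -/

section Concrete

variable {P : ValuationSubring Qb} {E : IntermediateField ℚ Qb} {M q : ℕ} [NeZero M] [NeZero q]
  [NeZero (M * q)] {w : RE P E}

/-- `Φ_q(j_q, j_{qq}) = 0` at level `M q q`. -/
theorem modPoly_eval_jqq370 (Φ : S28.ModPolyData q) :
    Φ.Φ.eval₂ (Polynomial.aeval (R := ℤ)
      (jE E (M * q * q) q (Dvd.intro_left (M * q) rfl))).toRingHom
      (jE E (M * q * q) (q * q) ⟨M, by ring⟩) = 0 := by
  refine H873.eval₂_eq_zero_of_int E (M * q * q) Φ.Φ _ _ (qExpand ℤ (q * q) (jqModC ℤ))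
    (qExpand ℤ q (jqModC ℤ)) (H873.coe_jE_int E _ (q * q) _) (H873.coe_jE_int E _ q _) ?_
  have h := congrArg (qExpand ℤ q) Φ.eval_jp
  rw [Polynomial.hom_eval₂, map_zero, S28.h88_comp_evalAt, qExpand_qExpand] at h
  exact h

theorem beta_j_eq_alpha_jq370 :
    βE E (M * q) q (jE E (M * q) 1 (one_dvd _)) =
      αE E (M * q) q (jE E (M * q) q (dvd_mul_left q M)) := by
  apply Subtype.ext
  rw [coe_heckeBetaBar, coe_heckeAlphaBar, H873.coe_jE, H873.coe_jE, qExpand_one_apply]

theorem alpha_jq_eq370 :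
    αE E (M * q) q (jE E (M * q) q (dvd_mul_left q M)) =
      jE E (M * q * q) q (Dvd.intro_left (M * q) rfl) := by
  apply Subtype.ext
  rw [coe_heckeAlphaBar, H873.coe_jE, H873.coe_jE]

theorem beta_jq_eq370 :
    βE E (M * q) q (jE E (M * q) q (dvd_mul_left q M)) =
      jE E (M * q * q) (q * q) ⟨M, by ring⟩ := by
  apply Subtype.ext
  rw [coe_heckeBetaBar, H873.coe_jE, H873.coe_jE, qExpand_qExpand]

/-- **The middle component lies over `V₀` along `β`.** -/
theorem comap_beta_mid (hS : Setting P E M q w)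
    {V₁' : ValuationSubring (FE E (M * q))} {W' : FE E (M * q) ≃ₐ[E] FE E (M * q)}
    {V₁ V₂ : ValuationSubring (FE E (M * q * q))}
    (hV₁' : IsVinf P E (M * q) V₁') (hW' : IsFricke E (M * q) W')
    (hV₁ : IsVinf P E (M * q * q) V₁)
    (hmid : V₂.comap (αE E (M * q) q : FE E (M * q) →+* FE E (M * q * q)) = V₁')
    (hne : V₂ ≠ V₁) :
    V₂.comap (βE E (M * q) q : FE E (M * q) →+* FE E (M * q * q)) =
      V₁'.comap (W' : FE E (M * q) →+* FE E (M * q)) := by
  haveI := hS.dvr
  haveI : Fact q.Prime := ⟨hS.q_prime⟩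
  obtain ⟨Φ⟩ := S28.H807.nonempty_modPolyData q hS.q_prime
  obtain ⟨htr, -, -⟩ := H31.deg E M q hS.q_prime hS.q_not_dvd
  have hG := H13.isGaussOver_xE hS.unif hV₁' htr
  have hu := (H553.vinfBasic P E w (M * q) (NeZero.ne _) hS.dvr hS.unif V₁' hV₁').1
  have hαmem : ∀ f, αE E (M * q) q f ∈ V₂ ↔ f ∈ V₁' := fun f => by
    rw [← hmid, ValuationSubring.mem_comap]
    rfl
  have hαnon : ∀ f, αE E (M * q) q f ∈ V₂.nonunits ↔ f ∈ V₁'.nonunits := fun f => by
    rw [← hmid, mem_nonunits_comap_hom]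
    rfl
  have hj' : jE E (M * q) 1 (one_dvd _) ∈ V₁' :=
    ((H553.vinfBasic P E w (M * q) (NeZero.ne _) hS.dvr hS.unif V₁' hV₁').2.2 1 (one_dvd _)).1
  have hjq' : jE E (M * q) q (dvd_mul_left q M) ∈ V₁' :=
    ((H553.vinfBasic P E w (M * q) (NeZero.ne _) hS.dvr hS.unif V₁' hV₁').2.2 q
      (dvd_mul_left q M)).1
  have h1 : αE E (M * q) q (jE E (M * q) 1 (one_dvd _)) ∈ V₂ := (hαmem _).mpr hj'
  have hq : αE E (M * q) q (jE E (M * q) q (dvd_mul_left q M)) ∈ V₂ := (hαmem _).mpr hjq'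
  have hΦ0 : Φ.Φ.eval₂ (Polynomial.aeval (R := ℤ)
      (αE E (M * q) q (jE E (M * q) q (dvd_mul_left q M)))).toRingHom
      (βE E (M * q) q (jE E (M * q) q (dvd_mul_left q M))) = 0 := by
    rw [alpha_jq_eq370, beta_jq_eq370]
    exact modPoly_eval_jqq370 Φ
  have hqq : βE E (M * q) q (jE E (M * q) q (dvd_mul_left q M)) ∈ V₂ :=
    H873.mem_valuationSubring_of_monic_eval Φ.Φ Φ.monic hΦ0 V₂ hq
  -- the residue field has characteristic `q`
  have hLO : V₂.LiesOverPrime q := by
    have h0 : ((q : ℕ) : FE E (M * q)) ∈ V₁'.nonunits :=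
      H83.h83_vinf_liesOver hS.dvr hS.lies_over hV₁'
    rw [← hαnon, map_natCast] at h0
    exact h0
  haveI : CharP (IsLocalRing.ResidueField V₂) q := S18.H516.charP_residue V₂ hLO
  -- Frobenius congruence `j^q ≡ j_q`
  have hfrob : IsLocalRing.residue V₂ ⟨_, h1⟩ ^ q = IsLocalRing.residue V₂ ⟨_, hq⟩ := by
    have hA := H83.h83_inW_j_pow_sub (M := M) hS.dvr hS.unif hS.q_prime hS.lies_over hV₁'
    have hA' : jE E (M * q) 1 (one_dvd _) ^ q - jE E (M * q) q (dvd_mul_left q M)
        ∈ V₁'.nonunits := (H13.inW_iff_mem_nonunits hu _).mp hA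
    rw [← hαnon, map_sub, map_pow] at hA'
    rw [← map_pow]
    exact (residue_eq_iff370 V₂ (pow_mem h1 q) hq).mpr hA'
  -- Kronecker
  have hkron : (IsLocalRing.residue V₂ ⟨_, hqq⟩ ^ q - IsLocalRing.residue V₂ ⟨_, hq⟩) *
      (IsLocalRing.residue V₂ ⟨_, hqq⟩ - IsLocalRing.residue V₂ ⟨_, hq⟩ ^ q) = 0 := by
    apply kronecker_field370 q Φ
    have hV : Φ.Φ.eval₂ (Polynomial.aeval (R := ℤ)
        (⟨_, hq⟩ : V₂)).toRingHom (⟨_, hqq⟩ : V₂) = 0 := by
      apply Subtype.ext
      have h := Polynomial.hom_eval₂ Φ.Φ (Polynomial.aeval (R := ℤ) (⟨_, hq⟩ : V₂)).toRingHom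
        V₂.subtype ⟨_, hqq⟩
      have hcomp : V₂.subtype.comp (Polynomial.aeval (R := ℤ) (⟨_, hq⟩ : V₂)).toRingHom =
          (Polynomial.aeval (R := ℤ)
            (αE E (M * q) q (jE E (M * q) q (dvd_mul_left q M)))).toRingHom := by
        apply Polynomial.ringHom_ext
        · intro n
          simp
        · simp
      rw [hcomp] at h
      exact h.trans hΦ0
    have h := congrArg (IsLocalRing.residue V₂) hV
    rw [Polynomial.hom_eval₂, map_zero] at h
    have hcomp : (IsLocalRing.residue V₂).comp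
        (Polynomial.aeval (R := ℤ) (⟨_, hq⟩ : V₂)).toRingHom =
        (Polynomial.aeval (R := ℤ) (IsLocalRing.residue V₂ ⟨_, hq⟩)).toRingHom := by
      apply Polynomial.ringHom_ext
      · intro n
        simp
      · simp
    rw [hcomp] at h
    exact h
  -- `β x' ≡ α (x'^n)`
  have hβx : βE E (M * q) q (xE E M q) =
      αE E (M * q) q (jE E (M * q) q (dvd_mul_left q M)) *
        βE E (M * q) q (jE E (M * q) q (dvd_mul_left q M)) := by
    rw [xE, map_mul, beta_j_eq_alpha_jq370]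
  have hαx : ∀ n : ℕ, αE E (M * q) q (xE E M q ^ n) =
      (αE E (M * q) q (jE E (M * q) 1 (one_dvd _)) *
        αE E (M * q) q (jE E (M * q) q (dvd_mul_left q M))) ^ n := by
    intro n
    rw [xE, map_pow, map_mul]
  obtain ⟨n, hn, hcong⟩ : ∃ n : ℕ, 0 < n ∧
      βE E (M * q) q (xE E M q) - αE E (M * q) q (xE E M q ^ n) ∈ V₂.nonunits := by
    rcases mul_eq_zero.mp hkron with h | h
    · -- `j_qq^q = j_q = j^q`, so `j_qq = j`
      refine ⟨1, one_pos, ?_⟩
      rw [sub_eq_zero] at h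
      have h2 : IsLocalRing.residue V₂ ⟨_, hqq⟩ = IsLocalRing.residue V₂ ⟨_, h1⟩ := by
        apply frobenius_inj (IsLocalRing.ResidueField V₂) q
        rw [frobenius_def, frobenius_def, h, hfrob]
      rw [hβx, hαx, pow_one]
      apply (residue_eq_iff370 V₂ (V₂.mul_mem _ _ hq hqq) (V₂.mul_mem _ _ h1 hq)).mp
      have e1 : (⟨_, V₂.mul_mem _ _ hq hqq⟩ : V₂) = ⟨_, hq⟩ * ⟨_, hqq⟩ := rfl
      have e2 : (⟨_, V₂.mul_mem _ _ h1 hq⟩ : V₂) = ⟨_, h1⟩ * ⟨_, hq⟩ := rfl
      rw [e1, e2, map_mul, map_mul, h2]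
      exact mul_comm _ _
    · -- `j_qq = j_q^q`
      refine ⟨q, hS.q_prime.pos, ?_⟩
      rw [sub_eq_zero] at h
      rw [hβx, hαx]
      apply (residue_eq_iff370 V₂ (V₂.mul_mem _ _ hq hqq)
        (pow_mem (V₂.mul_mem _ _ h1 hq) q)).mp
      have e1 : (⟨_, V₂.mul_mem _ _ hq hqq⟩ : V₂) = ⟨_, hq⟩ * ⟨_, hqq⟩ := rfl
      have e2 : (⟨_, pow_mem (V₂.mul_mem _ _ h1 hq) q⟩ : V₂) = (⟨_, h1⟩ * ⟨_, hq⟩) ^ q := rfl
      rw [e1, e2, map_mul, map_pow, map_mul, mul_pow, hfrob, h]
  have hGU := isGaussOver_comap_of_congr ((αE E (M * q) q).restrictScalars (RE P E))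
    ((βE E (M * q) q).restrictScalars (RE P E)) hmid hG hn hcong
  rcases Ribet.H279.eq_or_eq_of_isGaussOver hS hV₁' hW' hGU with hU | hU
  · exfalso
    apply hne
    refine H83.h83_beta_unique (M := M * q) hS.dvr hS.unif hS.q_prime (dvd_mul_left q M)
      hV₁' hV₁ V₂ (fun f => ?_)
    rw [← hU, ValuationSubring.mem_comap]
    rfl
  · exact hU

end Concrete

end Fermat.Agent.S36.H370

end
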